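import Fermat.Agent.S15.Abs.Defs
import Fermat.Agent.S17.DIV.Export
import Fermat.Agent.S17.Fin.Main
import Fermat.Agent.S17.WMW.OpenStab

/-!
# S15-DIVFIN: the fields (R0) of `Raw` for `J = ModularCurve.JZero N`

`smooth` (open stabilisers), `div` (divisibility), `fin` (finiteness of the torsion), verbatim in the
shape of the fields `Raw.smooth`, `Raw.div`, `Raw.fin` of `Fermat/Agent/S15/Abs/Defs.lean`.
-/

set_option autoImplicit false

namespace Fermat.Agent.S15.DivFin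

open ModularCurve AlgebraicCurve

/-- (R0), open stabilisers. -/
theorem smooth (N : ℕ) [NeZero N] (x : JZero N) :
    ∃ L : IntermediateField ℚ Qb, FiniteDimensional ℚ L ∧
      ∀ σ : GQ, (∀ a ∈ L, σ a = a) → σ • x = x := by
  obtain ⟨L, hL, h⟩ := Fermat.Agent.S17.WMW.exists_level_class N x
  refine ⟨L, hL, fun σ hσ => h σ ?_⟩
  rw [IntermediateField.mem_fixingSubgroup_iff]
  exact hσ

/-- (R0), divisibility. -/
theorem div (N : ℕ) [NeZero N] {ℓ : ℕ} (hℓ : 0 < ℓ) (x : JZero N) : ∃ z : JZero N, ℓ • z = x :=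
  Fermat.Agent.S17.DIV.exists_nsmul_eq N hℓ x

/-- (R0), finiteness of the `ℓ`-torsion. -/
theorem fin (N : ℕ) [NeZero N] {ℓ : ℕ} (hℓ : 0 < ℓ) : {x : JZero N | ℓ • x = 0}.Finite := by
  have : NeZero ℓ := ⟨hℓ.ne'⟩
  have := Fermat.Agent.S17.finite_torsion_bar N ℓ
  refine Set.Finite.subset (Set.finite_range
    (fun z : Pic0.torsion (AlgebraicClosure ℚ) (modularFunctionFieldBar N) ℓ => (z : JZero N))) ?_
  intro x hx
  exact ⟨⟨x, hx⟩, rfl⟩

end Fermat.Agent.S15.DivFin
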